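import Fermat.Agent.BoundedGeneration.Connected
import Fermat.Agent.Root.SummarySelbergLemma
import Mathlib.LinearAlgebra.Matrix.ToLin

/-!
# A connected group with short matrix coefficients is abelian

On an irreducible piece an element with two eigenvalues independent modulo torsion gives a matrix
coefficient that is an exponential sum with too many terms, so the adjoint group is periodic, hence
finite by Schur's theorem and trivial by connectedness. On invariant subspaces induction shows
commutators to be unipotent, and diagonalisable, so trivial.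
-/

set_option autoImplicit false

noncomputable section

open Finset Polynomial

namespace FA.BoundedGeneration

variable {K : Type*} [Field K] {G : Type*} [Group G] {V : Type*} [AddCommGroup V] [Module K V]
  {W : Type*} [AddCommGroup W] [Module K W]

/-- The matrix coefficients of the second representation are among those of the first. -/
def CoeffsWithin (ρ : G →* Module.End K V) (σ : G →* Module.End K W) : Prop :=
  ∀ (ψ : W →ₗ[K] K) (w : W), ∃ (φ : V →ₗ[K] K) (v : V), ∀ x, ψ (σ x w) = φ (ρ x v)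

theorem CoeffsWithin.shortCoeffs {ρ : G →* Module.End K V} {σ : G →* Module.End K W}
    (h : CoeffsWithin ρ σ) (hρ : ShortCoeffs ρ) : ShortCoeffs σ := by
  obtain ⟨N, hN⟩ := hρ
  refine ⟨N, fun ψ w => ?_⟩
  obtain ⟨φ, v, hφ⟩ := h ψ w
  obtain ⟨M, hM, hs⟩ := hN φ v
  exact ⟨M, hM, fun x => hφ x ▸ hs x⟩

theorem CoeffsWithin.isConnectedRep {ρ : G →* Module.End K V} {σ : G →* Module.End K W}
    (h : CoeffsWithin ρ σ) (hρ : IsConnectedRep ρ) : IsConnectedRep σ := by
  obtain ⟨𝒜, hdom, hdense, hmem⟩ := hρ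
  refine ⟨𝒜, hdom, hdense, fun ψ w => ?_⟩
  obtain ⟨φ, v, hφ⟩ := h ψ w
  rw [show (fun x => ψ (σ x w)) = fun x => φ (ρ x v) from funext hφ]
  exact hmem φ v

/-- The restriction to an invariant subspace. -/
def subRep (ρ : G →* Module.End K V) (U : Submodule K V) (hU : ∀ x, ∀ u ∈ U, ρ x u ∈ U) :
    G →* Module.End K U where
  toFun x := (ρ x).restrict (hU x)
  map_one' := LinearMap.ext fun u => Subtype.ext (by simp [LinearMap.restrict_apply])
  map_mul' x y := LinearMap.ext fun u => Subtype.ext (by simp [LinearMap.restrict_apply])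

/-- The quotient by an invariant subspace. -/
def quotRep (ρ : G →* Module.End K V) (U : Submodule K V) (hU : ∀ x, ∀ u ∈ U, ρ x u ∈ U) :
    G →* Module.End K (V ⧸ U) where
  toFun x := U.mapQ U (ρ x) fun u hu => hU x u hu
  map_one' := Submodule.linearMap_qext _ (LinearMap.ext fun v => by simp)
  map_mul' x y := Submodule.linearMap_qext _ (LinearMap.ext fun v => by simp)

theorem coeffsWithin_subRep (ρ : G →* Module.End K V) (U : Submodule K V)
    (hU : ∀ x, ∀ u ∈ U, ρ x u ∈ U) : CoeffsWithin ρ (subRep ρ U hU) := fun ψ u => by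
  obtain ⟨φ, hφ⟩ := ψ.exists_extend
  exact ⟨φ, u, fun x => (LinearMap.congr_fun hφ (subRep ρ U hU x u)).symm⟩

theorem coeffsWithin_quotRep (ρ : G →* Module.End K V) (U : Submodule K V)
    (hU : ∀ x, ∀ u ∈ U, ρ x u ∈ U) : CoeffsWithin ρ (quotRep ρ U hU) := fun ψ w => by
  obtain ⟨v, rfl⟩ := U.mkQ_surjective w
  exact ⟨ψ.comp U.mkQ, v, fun x => rfl⟩

/-- Finitely many nonzero functions in a domain are nonzero at one point. -/
theorem exists_forall_ne_zero {𝒜 : Subalgebra K (G → K)}
    (hdom : ∀ f ∈ 𝒜, ∀ g ∈ 𝒜, f * g = 0 → f = 0 ∨ g = 0) {ι : Type*} (s : Finset ι)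
    (f : ι → G → K) (hf : ∀ i ∈ s, f i ∈ 𝒜) (hne : ∀ i ∈ s, f i ≠ 0) :
    ∃ x, ∀ i ∈ s, f i x ≠ 0 := by
  classical
  have key : ∏ i ∈ s, f i ≠ 0 := by
    induction s using Finset.induction with
    | empty => simp
    | insert a s ha ih =>
      rw [prod_insert ha]
      intro h
      rcases hdom _ (hf a (mem_insert_self a s)) _
          (prod_mem fun i hi => hf i (mem_insert_of_mem hi)) h with h | h
      · exact hne a (mem_insert_self a s) h
      · exact ih (fun i hi => hf i (mem_insert_of_mem hi))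
          (fun i hi => hne i (mem_insert_of_mem hi)) h
  obtain ⟨x, hx⟩ := Function.ne_iff.1 key
  rw [Finset.prod_apply, Pi.zero_apply, prod_ne_zero_iff] at hx
  exact ⟨x, hx⟩

/-- In an irreducible representation a nonzero map is nonzero on an orbit. -/
theorem exists_coeff_ne_zero {U : Type*} [AddCommGroup U] [Module K U]
    (σ : G →* Module.End K W)
    (hirr : ∀ U : Submodule K W, (∀ x, ∀ u ∈ U, σ x u ∈ U) → U = ⊥ ∨ U = ⊤)
    {w : W} (hw : w ≠ 0) {f : W →ₗ[K] U} (hf : f ≠ 0) : ∃ x, f (σ x w) ≠ 0 := by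
  by_contra! h
  set O := Submodule.span K (Set.range fun x => σ x w)
  have hO : ∀ x, ∀ u ∈ O, σ x u ∈ O := fun x u hu => by
    have h1 : O ≤ O.comap (σ x) := Submodule.span_le.2 (by
      rintro _ ⟨y, rfl⟩
      exact Submodule.subset_span ⟨x * y, by simp⟩)
    exact h1 hu
  rcases hirr O hO with hb | ht
  · exact hw ((Submodule.mem_bot K).1 (hb.le (Submodule.subset_span ⟨1, by simp⟩)))
  · refine hf (LinearMap.ker_eq_top.1 (top_le_iff.1 (ht.ge.trans (Submodule.span_le.2 ?_))))
    rintro _ ⟨x, rfl⟩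
    exact h x

variable [CharZero K]

theorem apply_pow_eigen {σ' : G →* Module.End K W} {γ : G} {c : K} {w : W}
    (hw : σ' γ w = c • w) (r : ℕ) : σ' (γ ^ r) w = c ^ r • w := by
  induction r with
  | zero => simp
  | succ j ih =>
    rw [pow_succ, map_mul, Module.End.mul_apply, hw, map_smul, ih, smul_smul, pow_succ, mul_comm]

/-- Two powers of an element of infinite order are not both torsion modulo a given one. -/
theorem finite_torsion_zpow {A : Type*} [CommGroup A] {a : A} (ha : ¬IsOfFinOrder a) (b : A) :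
    {k : ℤ | IsOfFinOrder (a ^ k * b)}.Finite := by
  refine Set.Subsingleton.finite fun k hk l hl => ?_
  by_contra hkl
  have h : IsOfFinOrder (a ^ (k - l)) := by
    rw [show a ^ (k - l) = a ^ k * b * (a ^ l * b)⁻¹ by rw [zpow_sub]; group]
    exact hk.mul hl.inv
  obtain ⟨m, hm, hm'⟩ := isOfFinOrder_iff_pow_eq_one.1 h
  rw [← zpow_natCast, ← zpow_mul] at hm'
  exact ha (isOfFinOrder_iff_zpow_eq_one.2
    ⟨(k - l) * m, mul_ne_zero (sub_ne_zero.2 hkl) (Int.natCast_ne_zero.2 hm.ne'), hm'⟩)

/-- **Too many exponential terms**: no two eigenvalues independent modulo torsion. -/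
theorem torsion_ratios_of_irreducible [FiniteDimensional K W] (σ : G →* Module.End K W)
    (hshort : ShortCoeffs σ) (hconn : IsConnectedRep σ)
    (hirr : ∀ U : Submodule K W, (∀ x, ∀ u ∈ U, σ x u ∈ U) → U = ⊥ ∨ U = ⊤)
    {γ : G} {S : Finset Kˣ} {P : Kˣ → Module.End K W} (hP : ∀ μ ∈ S, P μ ≠ 0)
    (hPμ : ∀ μ ∈ S, σ γ * P μ = (μ : K) • P μ)
    (hexp : ∀ (a : ℤ) (v : W), σ (γ ^ a) v = ∑ μ ∈ S, ((μ ^ a : Kˣ) : K) • P μ v)
    {μ ν : Kˣ} (hμ : μ ∈ S) (hν : ν ∈ S) : IsOfFinOrder (μ / ν) := by
  classical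
  by_contra hμν
  obtain ⟨N, hN⟩ := hshort
  obtain ⟨𝒜, hdom, -, hmem⟩ := hconn
  set r := ∏ p ∈ (S ×ˢ S).filter (fun p => IsOfFinOrder (p.1 / p.2)), orderOf (p.1 / p.2)
  have hr : 0 < r := prod_pos fun p hp => (mem_filter.1 hp).2.orderOf_pos
  set Q : Kˣ → Module.End K W := fun t => ∑ κ ∈ S with κ ^ r = t, P κ
  set T := (S.image (· ^ r)).filter fun t => Q t ≠ 0
  have hexp' : ∀ (a : ℤ) (v : W),
      σ ((γ ^ r) ^ a) v = ∑ t ∈ T, ((t ^ a : Kˣ) : K) • Q t v := fun a v => by
    rw [← zpow_natCast γ r, ← zpow_mul, hexp]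
    show _ = ∑ t ∈ (S.image (· ^ r)).filter (fun t => Q t ≠ 0), _
    rw [sum_filter_of_ne (p := fun t => Q t ≠ 0)
        fun t _ h hQ => h (by rw [hQ, LinearMap.zero_apply, smul_zero]),
      ← sum_fiberwise_of_maps_to (g := (· ^ r)) (t := S.image (· ^ r))
        fun κ hκ => mem_image_of_mem _ hκ]
    refine sum_congr rfl fun t _ => ?_
    rw [LinearMap.sum_apply, smul_sum]
    refine sum_congr rfl fun κ hκ => ?_
    rw [← (mem_filter.1 hκ).2, zpow_mul, zpow_natCast]
  have hT : ∀ t ∈ T, ∀ t' ∈ T, t ≠ t' → ¬IsOfFinOrder (t / t') := by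
    intro t ht t' ht' hne hfin
    obtain ⟨κ, hκ, rfl⟩ := mem_image.1 (mem_filter.1 ht).1
    obtain ⟨κ', hκ', rfl⟩ := mem_image.1 (mem_filter.1 ht').1
    rw [← div_pow] at hfin
    obtain ⟨m, hm, hm'⟩ := isOfFinOrder_iff_pow_eq_one.1 hfin
    rw [← pow_mul] at hm'
    have h : IsOfFinOrder (κ / κ') :=
      isOfFinOrder_iff_pow_eq_one.2 ⟨r * m, Nat.mul_pos hr hm, hm'⟩
    refine hne (div_eq_one.1 ?_)
    rw [← div_pow, ← orderOf_dvd_iff_pow_eq_one]
    exact dvd_prod_of_mem (fun p : Kˣ × Kˣ => orderOf (p.1 / p.2))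
      (mem_filter.2 ⟨mem_product.2 ⟨hκ, hκ'⟩, h⟩ : (κ, κ') ∈ _)
  have hcard : 2 ≤ #T := by
    by_contra! hlt
    have hscalar : ∀ κ ∈ S, ∃ t ∈ T, κ ^ r = t := fun κ hκ => by
      obtain ⟨u, hu⟩ : ∃ u, P κ u ≠ 0 := by
        by_contra! h
        exact hP κ hκ (LinearMap.ext h)
      set w := P κ u
      have hw : σ γ w = (κ : K) • w := LinearMap.congr_fun (hPμ κ hκ) u
      have hpow : σ (γ ^ r) w = ((κ : K) ^ r) • w := apply_pow_eigen hw r
      obtain ⟨t, ht⟩ : T.Nonempty := by
        by_contra he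
        rw [not_nonempty_iff_eq_empty] at he
        have h0 := hexp' 0 u
        rw [zpow_zero, map_one, Module.End.one_apply, he, sum_empty] at h0
        exact hu (by show P κ u = 0; rw [h0, map_zero])
      have hTt : T = {t} := eq_singleton_iff_unique_mem.2 ⟨ht, fun t' ht' => by
        by_contra hne
        have := card_le_card (show {t, t'} ⊆ T by simp [insert_subset_iff, ht, ht'])
        rw [card_pair (Ne.symm hne)] at this
        omega⟩
      have hQ : ∀ v, Q t v = v := fun v => by
        have h0 := hexp' 0 v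
        rw [zpow_zero, map_one, Module.End.one_apply, hTt, sum_singleton, zpow_zero, Units.val_one,
          one_smul] at h0
        exact h0.symm
      have h1 := hexp' 1 w
      rw [zpow_one, hpow, hTt, sum_singleton, zpow_one, hQ] at h1
      exact ⟨t, ht, Units.ext (by
        rw [Units.val_pow_eq_pow_val]; exact smul_left_injective K hu h1)⟩
    obtain ⟨t, ht, h⟩ := hscalar μ hμ
    obtain ⟨t', ht', h'⟩ := hscalar ν hν
    have : t = t' := by
      by_contra hne
      have := card_le_card (show {t, t'} ⊆ T by simp [insert_subset_iff, ht, ht'])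
      rw [card_pair hne] at this
      omega
    exact hμν (isOfFinOrder_iff_pow_eq_one.2
      ⟨r, hr, by rw [div_pow, h, h', this, div_self']⟩)
  -- many nonzero terms
  obtain ⟨v₀, hv₀⟩ : ∃ v₀ : W, v₀ ≠ 0 := by
    by_contra! h
    exact hP μ hμ (LinearMap.ext fun v => h _)
  have step : ∀ j : ℕ, ∃ (m : ℕ) (word : ℤ → G) (w : Fin m → W) (χ : Fin m → Kˣ), 2 ^ j ≤ m ∧
      (∀ i, w i ≠ 0) ∧ (∀ i, χ i ∈ Subgroup.closure (T : Set Kˣ)) ∧
      (∀ i i', i ≠ i' → ¬IsOfFinOrder (χ i / χ i')) ∧
      ∀ s : ℤ, σ (word s) v₀ = ∑ i, ((χ i ^ s : Kˣ) : K) • w i := fun j => by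
    induction j with
    | zero =>
      exact ⟨1, fun _ => 1, fun _ => v₀, fun _ => 1, le_rfl, fun _ => hv₀, fun _ => one_mem _,
        fun i i' h => absurd (Subsingleton.elim i i') h, fun s => by simp⟩
    | succ j ih =>
      obtain ⟨m, word, w, χ, hm, hw, hχ, hsep, hword⟩ := ih
      have hfun : ∀ p : T × Fin m, ∃ φ : W →ₗ[K] K,
          (fun x => φ (Q p.1 (σ x (w p.2)))) ≠ 0 := fun p => by
        obtain ⟨x, hx⟩ := exists_coeff_ne_zero σ hirr (hw p.2) (mem_filter.1 p.1.2).2
        obtain ⟨φ, hφ⟩ := Module.Projective.exists_dual_ne_zero K hx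
        exact ⟨φ, fun h => hφ (congrFun h x)⟩
      choose φ hφ using hfun
      obtain ⟨h, hh⟩ := exists_forall_ne_zero hdom univ
        (fun (p : T × Fin m) x => φ p (Q p.1 (σ x (w p.2))))
        (fun p _ => hmem ((φ p).comp (Q p.1)) (w p.2)) fun p _ => hφ p
      obtain ⟨b, hb⟩ : ∃ b : ℤ, ∀ p q : T × Fin m, p.1 ≠ q.1 →
          ¬IsOfFinOrder (((p.1 : Kˣ) / q.1) ^ b * (χ p.2 / χ q.2)) := by
        have hbad : (⋃ pq ∈ {pq : (T × Fin m) × (T × Fin m) | pq.1.1 ≠ pq.2.1},
            {k : ℤ | IsOfFinOrder (((pq.1.1 : Kˣ) / pq.2.1) ^ k *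
              (χ pq.1.2 / χ pq.2.2))}).Finite :=
          (Set.toFinite _).biUnion fun pq hpq => finite_torsion_zpow
            (hT _ pq.1.1.2 _ pq.2.1.2 fun e => hpq (Subtype.ext e)) _
        obtain ⟨b, hb⟩ := hbad.infinite_compl.nonempty
        exact ⟨b, fun p q hpq hfin =>
          hb (Set.mem_biUnion (x := (p, q)) (by simpa using hpq) hfin)⟩
      set e := Fintype.equivFin (T × Fin m)
      refine ⟨Fintype.card (T × Fin m), fun s => (γ ^ r) ^ (b * s) * (h * word s),
        fun i => Q (e.symm i).1 (σ h (w (e.symm i).2)),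
        fun i => ((e.symm i).1 : Kˣ) ^ b * χ (e.symm i).2, ?_, fun i hi => ?_, fun i => ?_,
        fun i i' hii hfin => ?_, fun s => ?_⟩
      · rw [Fintype.card_prod, Fintype.card_coe, Fintype.card_fin, pow_succ']
        exact Nat.mul_le_mul hcard hm
      · simp only at hi
        exact hh (e.symm i) (mem_univ _) (by rw [hi, map_zero])
      · exact mul_mem (zpow_mem (Subgroup.subset_closure (e.symm i).1.2) b) (hχ _)
      · simp only at hfin
        by_cases h1 : (e.symm i).1 = (e.symm i').1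
        · refine hsep _ _ (fun h2 => hii (e.symm.injective (Prod.ext h1 h2))) ?_
          rw [h1, mul_div_mul_left_eq_div] at hfin
          exact hfin
        · refine hb _ _ h1 ?_
          rw [div_zpow, div_mul_div_comm]
          exact hfin
      · simp only
        rw [map_mul, Module.End.mul_apply, hexp', map_mul, Module.End.mul_apply, hword,
          e.symm.sum_comp fun p => ((((p.1 : Kˣ) ^ b * χ p.2) ^ s : Kˣ) : K) •
            Q p.1 (σ h (w p.2)), Fintype.sum_prod_type, ← sum_coe_sort T]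
        refine sum_congr rfl fun t _ => ?_
        simp only [map_sum, map_smul, smul_sum, smul_smul]
        refine sum_congr rfl fun i _ => ?_
        rw [mul_zpow, ← zpow_mul, Units.val_mul]
  obtain ⟨m, word, w, χ, hm, hw, hχ, hsep, hword⟩ := step N
  obtain ⟨φ, hφ⟩ := Module.Projective.exists_dual_ne_zero K hv₀
  obtain ⟨h, hh⟩ := exists_forall_ne_zero hdom univ (fun (i : Fin m) x => φ (σ x (w i)))
    (fun i _ => hmem φ (w i)) fun i _ hi => by
      obtain ⟨x, hx⟩ := exists_coeff_ne_zero σ hirr (hw i)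
        (show φ ≠ 0 from fun e => hφ (by rw [e]; rfl))
      exact hx (congrFun hi x)
  obtain ⟨M, hM, hMs⟩ := hN φ v₀
  obtain ⟨Vs, hVs, hclose⟩ := exists_close_terms (M := M ⊔ Subgroup.closure (T : Set Kˣ))
    (Subgroup.FG.sup hM ⟨T, rfl⟩) (fun i => φ (σ h (w i))) (fun i => hh i (mem_univ i)) (N := N)
    (by rw [Fintype.card_fin]; exact lt_of_lt_of_le Nat.lt_two_pow_self hm)
  have hfin : (⋃ p ∈ {p : Fin m × Fin m | p.1 ≠ p.2},
      {s : ℤ | (χ p.1 / χ p.2) ^ s ∈ Vs}).Finite := by
    refine (Set.toFinite _).biUnion fun p hp => hVs.preimage fun s _ s' _ hss => ?_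
    exact injective_zpow_iff_not_isOfFinOrder.2 (hsep _ _ hp) hss
  obtain ⟨s, hs⟩ := hfin.infinite_compl.nonempty
  refine hs ?_
  obtain ⟨i, i', hii, hV⟩ := hclose (fun i => χ i ^ s)
    (fun i => Subgroup.mem_sup_right (zpow_mem (hχ i) s)) (by
      have h1 := (hMs (h * word s)).mono (le_sup_left : M ≤ M ⊔ Subgroup.closure (T : Set Kˣ))
      rw [map_mul, Module.End.mul_apply, hword, map_sum, map_sum] at h1
      convert h1 using 1
      exact sum_congr rfl fun i _ => by rw [map_smul, map_smul, smul_eq_mul, mul_comm])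
  exact Set.mem_biUnion (x := (i, i')) hii (by show _ ^ s ∈ Vs; rwa [div_zpow])

/-- **Torsion ratios everywhere**: the connected group commutes. -/
theorem commute_of_torsion_ratios [FiniteDimensional K W] [Group.FG G] (σ : G →* Module.End K W)
    (hconn : IsConnectedRep σ)
    (hper : ∀ x, ∃ (r : ℕ) (c : K), 0 < r ∧ σ (x ^ r) = c • 1) (x y : G) :
    σ (x * y) = σ (y * x) := by
  classical
  let u : G →* (Module.End K W)ˣ := σ.toHomUnits
  let ad : G →* (Module.End K (Module.End K W))ˣ :=
    MonoidHom.toHomUnits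
      { toFun := fun x => LinearMap.mulLeftRight K (σ x, σ x⁻¹)
        map_one' := LinearMap.ext fun f => by simp
        map_mul' := fun x y => LinearMap.ext fun f => by simp [mul_assoc] }
  have had : ∀ x f, (ad x : Module.End K (Module.End K W)) f = σ x * f * σ x⁻¹ := fun x f => by
    simp [ad]
  let b := Module.finBasis K (Module.End K W)
  let Φ : G →* Matrix.GeneralLinearGroup (Fin (Module.finrank K (Module.End K W))) K :=
    (Units.map (LinearMap.toMatrixAlgEquiv b).toMonoidHom).comp ad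
  have hΦ : ∀ x, Φ x = 1 → ∀ f, σ x * f = f * σ x := fun x hx f => by
    have h1 : (ad x : Module.End K (Module.End K W)) = 1 :=
      (LinearMap.toMatrixAlgEquiv b).injective ((congrArg Units.val hx).trans (map_one _).symm)
    have h2 := had x f
    rw [h1, Module.End.one_apply] at h2
    conv_rhs => rw [h2, mul_assoc, ← map_mul, inv_mul_cancel, map_one, mul_one]
  have hfin : Finite Φ.range := by
    refine FA.Summary.schur_periodic_finite Φ.range
      ((Group.fg_iff_subgroup_fg _).1 (Group.fg_range Φ)) ?_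
    rintro _ ⟨x, rfl⟩
    obtain ⟨r, c, hr, hc⟩ := hper x
    refine isOfFinOrder_iff_pow_eq_one.2 ⟨r, hr, ?_⟩
    rw [← map_pow]
    have h1 : (ad (x ^ r) : Module.End K (Module.End K W)) = 1 := LinearMap.ext fun f => by
      have h : σ (x ^ r) * f = f * σ (x ^ r) := by
        rw [hc, smul_mul_assoc, one_mul, mul_smul_comm, mul_one]
      rw [had, h, mul_assoc, ← map_mul, mul_inv_cancel, map_one, mul_one, Module.End.one_apply]
    exact Units.ext (by
      show LinearMap.toMatrixAlgEquiv b (ad (x ^ r) : Module.End K (Module.End K W)) = 1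
      rw [h1, map_one])
  haveI : Φ.ker.FiniteIndex := Subgroup.finiteIndex_ker Φ
  obtain ⟨𝒜, -, hdense, hmem⟩ := hconn
  refine LinearMap.ext fun w => sub_eq_zero.1
    ((Module.forall_dual_apply_eq_zero_iff K _).1 fun ψ => ?_)
  rw [map_sub, sub_eq_zero]
  have hmem' : (fun x => ψ (σ x (σ y w))) - (fun x => (ψ.comp (σ y)) (σ x w)) ∈ 𝒜 :=
    sub_mem (hmem ψ (σ y w)) (hmem (ψ.comp (σ y)) w)
  have h := congrFun (hdense _ hmem' Φ.ker inferInstance fun z hz => by
    have hz' := LinearMap.congr_fun (hΦ z hz (σ y)) w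
    simp only [Module.End.mul_apply] at hz'
    simp [hz']) x
  rw [Pi.sub_apply, Pi.zero_apply, sub_eq_zero] at h
  simpa [map_mul] using h

variable [IsAlgClosed K]

/-- **Connected groups with short coefficients are abelian.** -/
theorem commute_of_connected [Group.FG G] : ∀ (n : ℕ) (W : Type _) [AddCommGroup W] [Module K W]
    [FiniteDimensional K W] (σ : G →* Module.End K W), Module.finrank K W = n →
      ShortCoeffs σ → IsConnectedRep σ → ∀ x y, σ (x * y) = σ (y * x) := by
  intro n
  induction n using Nat.strong_induction_on with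
  | _ n ih =>
    intro W _ _ _ σ hn hshort hconn x y
    have hdiag := isDiag_of_shortCoeffs σ hshort
    by_cases hirr : ∀ U : Submodule K W, (∀ x, ∀ u ∈ U, σ x u ∈ U) → U = ⊥ ∨ U = ⊤
    · refine commute_of_torsion_ratios σ hconn (fun z => ?_) x y
      obtain ⟨S, P, hP, hPz, hexp⟩ := exists_zpow_expansion σ (hdiag z)
      rcases S.eq_empty_or_nonempty with rfl | ⟨μ₀, hμ₀⟩
      · refine ⟨1, 0, one_pos, LinearMap.ext fun v => ?_⟩
        have := hexp 1 v
        rw [zpow_one, sum_empty] at this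
        rw [pow_one, this, zero_smul, LinearMap.zero_apply]
      have htor := fun μ (hμ : μ ∈ S) =>
        torsion_ratios_of_irreducible σ hshort hconn hirr hP hPz hexp hμ hμ₀
      refine ⟨∏ μ ∈ S, orderOf (μ / μ₀), ((μ₀ ^ (∏ μ ∈ S, orderOf (μ / μ₀)) : Kˣ) : K),
        prod_pos fun μ hμ => (htor μ hμ).orderOf_pos, LinearMap.ext fun v => ?_⟩
      set r := ∏ μ ∈ S, orderOf (μ / μ₀)
      rw [← zpow_natCast z r, hexp, LinearMap.smul_apply, Module.End.one_apply]
      conv_rhs => rw [show v = σ (z ^ (0 : ℤ)) v by simp, hexp, smul_sum]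
      refine sum_congr rfl fun μ hμ => ?_
      rw [zpow_natCast, zpow_zero, Units.val_one, one_smul]
      have h1 : (μ / μ₀) ^ r = 1 :=
        orderOf_dvd_iff_pow_eq_one.1 (dvd_prod_of_mem (fun μ => orderOf (μ / μ₀)) hμ)
      rw [div_pow, div_eq_one] at h1
      rw [h1]
    · push Not at hirr
      obtain ⟨U, hU, hbot, htop⟩ := hirr
      have hsub : Module.finrank K U < n := hn ▸ Submodule.finrank_lt htop
      have hquot : Module.finrank K (W ⧸ U) < n := by
        have := U.finrank_quotient_add_finrank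
        have : 0 < Module.finrank K U := by
          rw [Module.finrank_pos_iff]; exact Submodule.nontrivial_iff_ne_bot.2 hbot
        omega
      have h1 := ih _ hsub U (subRep σ U hU) rfl
        ((coeffsWithin_subRep σ U hU).shortCoeffs hshort)
        ((coeffsWithin_subRep σ U hU).isConnectedRep hconn) x y
      have h2 := ih _ hquot (W ⧸ U) (quotRep σ U hU) rfl
        ((coeffsWithin_quotRep σ U hU).shortCoeffs hshort)
        ((coeffsWithin_quotRep σ U hU).isConnectedRep hconn) x y
      set c := x * y * (y * x)⁻¹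
      have hone : σ c = 1 := by
        have hsq : aeval (σ c) ((X - 1 : K[X]) ^ 2) = 0 := by
          rw [map_pow, map_sub, aeval_X, map_one, pow_two]
          refine LinearMap.ext fun v => ?_
          have hv : σ c v - v ∈ U := by
            rw [← Submodule.Quotient.eq]
            have h : quotRep σ U hU c (U.mkQ v) = U.mkQ v := by
              rw [map_mul, Module.End.mul_apply, h2, ← Module.End.mul_apply, ← map_mul,
                mul_inv_cancel, map_one, Module.End.one_apply]
            exact h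
          have hu : σ c (σ c v - v) = σ c v - v := by
            have h : subRep σ U hU c ⟨_, hv⟩ = ⟨_, hv⟩ := by
              rw [map_mul, Module.End.mul_apply, h1, ← Module.End.mul_apply, ← map_mul,
                mul_inv_cancel, map_one, Module.End.one_apply]
            exact congrArg Subtype.val h
          show (σ c - 1) ((σ c - 1) v) = 0
          rw [LinearMap.sub_apply, LinearMap.sub_apply, Module.End.one_apply, Module.End.one_apply,
            hu, sub_self]
        have h := (hdiag c).aeval_eq_zero_of_sq hsq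
        rwa [map_sub, aeval_X, map_one, sub_eq_zero] at h
      calc σ (x * y) = σ (c * (y * x)) := by rw [inv_mul_cancel_right]
        _ = σ (y * x) := by rw [map_mul, hone, one_mul]

end FA.BoundedGeneration

end
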