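import Fermat.Agent.BoundedGeneration.Diagonal
import Mathlib.RingTheory.Ideal.MinimalPrime.Noetherian
import Mathlib.RingTheory.Polynomial.Basic
import Mathlib.GroupTheory.Schreier
import Mathlib.GroupTheory.GroupAction.Quotient

/-!
# Connected subgroups of finite index

Of the subgroups of finite index take one with maximal vanishing ideal. It permutes the finitely
many minimal primes of its ideal, and the finite index subgroup fixing them is in one zero set, so
the ideal is prime: the polynomial functions on the subgroup form a domain.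
-/

set_option autoImplicit false

noncomputable section

open Finset

namespace FA.BoundedGeneration

variable {K : Type*} [Field K] {V : Type*} [AddCommGroup V] [Module K V] {G : Type*} [Group G]

/-- An algebra of functions with the matrix coefficients that is a domain and sees no difference
between a group and its subgroups of finite index. -/
def IsConnectedRep (ρ : G →* Module.End K V) : Prop :=
  ∃ 𝒜 : Subalgebra K (G → K), (∀ f ∈ 𝒜, ∀ g ∈ 𝒜, f * g = 0 → f = 0 ∨ g = 0) ∧
    (∀ f ∈ 𝒜, ∀ H : Subgroup G, H.FiniteIndex → (∀ x ∈ H, f x = 0) → f = 0) ∧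
    ∀ (φ : V →ₗ[K] K) (v : V), (fun x => φ (ρ x v)) ∈ 𝒜

variable {d : Type*} [Fintype d] [DecidableEq d]

/-- The ideal of the polynomials vanishing on a subgroup. -/
def zeroIdeal (m : G →* Matrix d d K) (H : Subgroup G) : Ideal (MvPolynomial (d × d) K) :=
  ⨅ x ∈ H, RingHom.ker (MvPolynomial.eval fun p : d × d => m x p.1 p.2)

theorem mem_zeroIdeal {m : G →* Matrix d d K} {H : Subgroup G} {f : MvPolynomial (d × d) K} :
    f ∈ zeroIdeal m H ↔ ∀ x ∈ H, MvPolynomial.eval (fun p : d × d => m x p.1 p.2) f = 0 := by
  simp [zeroIdeal, Submodule.mem_iInf, RingHom.mem_ker]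

/-- The substitution of a left translation. -/
def translate (a : Matrix d d K) : MvPolynomial (d × d) K →ₐ[K] MvPolynomial (d × d) K :=
  MvPolynomial.aeval fun p => ∑ l, MvPolynomial.C (a p.1 l) * MvPolynomial.X (l, p.2)

theorem translate_X (a : Matrix d d K) (p : d × d) :
    translate a (MvPolynomial.X p) = ∑ l, MvPolynomial.C (a p.1 l) * MvPolynomial.X (l, p.2) :=
  MvPolynomial.aeval_X _ _

theorem translate_C (a : Matrix d d K) (c : K) :
    translate a (MvPolynomial.C c) = MvPolynomial.C c :=
  MvPolynomial.aeval_C _ _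

theorem eval_translate (a b : Matrix d d K) (f : MvPolynomial (d × d) K) :
    MvPolynomial.eval (fun p : d × d => b p.1 p.2) (translate a f) =
      MvPolynomial.eval (fun p : d × d => (a * b) p.1 p.2) f := by
  induction f using MvPolynomial.induction_on with
  | C c => rw [translate_C, MvPolynomial.eval_C, MvPolynomial.eval_C]
  | add p q hp hq => rw [map_add, map_add, map_add, hp, hq]
  | mul_X p i hp =>
    rw [map_mul, map_mul, map_mul, hp, translate_X, MvPolynomial.eval_X]
    congr 1
    rw [map_sum, Matrix.mul_apply]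
    exact sum_congr rfl fun l _ => by rw [map_mul, MvPolynomial.eval_C, MvPolynomial.eval_X]

theorem translate_translate (a b : Matrix d d K) (f : MvPolynomial (d × d) K) :
    translate a (translate b f) = translate (b * a) f := by
  induction f using MvPolynomial.induction_on with
  | C c => rw [translate_C, translate_C, translate_C]
  | add p q hp hq => rw [map_add, map_add, map_add, hp, hq]
  | mul_X p i hp =>
    have h : translate a (translate b (MvPolynomial.X i)) =
        translate (b * a) (MvPolynomial.X i) := by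
      rw [translate_X, translate_X, map_sum]
      calc ∑ l, translate a (MvPolynomial.C (b i.1 l) * MvPolynomial.X (l, i.2))
          = ∑ l, ∑ k, MvPolynomial.C (b i.1 l * a l k) * MvPolynomial.X (k, i.2) :=
            sum_congr rfl fun l _ => by
              rw [map_mul, translate_C, translate_X, mul_sum]
              exact sum_congr rfl fun k _ => by rw [map_mul, mul_assoc]
        _ = _ := by
              rw [sum_comm]
              exact sum_congr rfl fun k _ => by rw [← sum_mul, ← map_sum, Matrix.mul_apply]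
    rw [map_mul (translate b), map_mul (translate a), map_mul (translate (b * a)), hp, h]

theorem translate_one (f : MvPolynomial (d × d) K) : translate (1 : Matrix d d K) f = f := by
  induction f using MvPolynomial.induction_on with
  | C c => rw [translate_C]
  | add p q hp hq => rw [map_add, hp, hq]
  | mul_X p i hp =>
    rw [map_mul, hp, translate_X, sum_eq_single i.1, Matrix.one_apply_eq, map_one, one_mul]
    · intro l _ hl
      rw [Matrix.one_apply_ne hl.symm, map_zero, zero_mul]
    · exact fun h => absurd (mem_univ _) h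

attribute [irreducible] translate

theorem translate_mem {m : G →* Matrix d d K} {f : MvPolynomial (d × d) K}
    (hf : f ∈ zeroIdeal m ⊤) (a : G) : translate (m a) f ∈ zeroIdeal m ⊤ := by
  rw [mem_zeroIdeal] at hf ⊢
  intro x _
  rw [eval_translate, ← map_mul]
  exact hf _ trivial

/-- Translates of the minimal primes are minimal primes. -/
theorem comap_translate_mem {m : G →* Matrix d d K} {P : Ideal (MvPolynomial (d × d) K)}
    (hP : P ∈ (zeroIdeal m ⊤).minimalPrimes) (a : G) :
    P.comap (translate (m a)) ∈ (zeroIdeal m ⊤).minimalPrimes := by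
  have hPprime : P.IsPrime := hP.1.1
  have hcomap : ∀ (Q : Ideal (MvPolynomial (d × d) K)) (c : G), Q.IsPrime → zeroIdeal m ⊤ ≤ Q →
      (Q.comap (translate (m c))).IsPrime ∧ zeroIdeal m ⊤ ≤ Q.comap (translate (m c)) :=
    fun Q c hQ hle => ⟨Ideal.IsPrime.comap _, fun g hg => Ideal.mem_comap.2
      (hle (translate_mem hg c))⟩
  have hinv : ∀ (c : G) (g : MvPolynomial (d × d) K),
      translate (m c) (translate (m c⁻¹) g) = g := fun c g => by
    rw [translate_translate, ← map_mul, inv_mul_cancel, map_one, translate_one]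
  refine ⟨hcomap P a hPprime hP.1.2, fun Q hQ hle f hf => ?_⟩
  have h : P ≤ Q.comap (translate (m a⁻¹)) := by
    refine hP.2 (hcomap Q a⁻¹ hQ.1 hQ.2) fun g hg => ?_
    have h1 := Ideal.mem_comap.1 (hle (Ideal.mem_comap.1 hg))
    rwa [hinv] at h1
  have h2 := Ideal.mem_comap.1 (h (Ideal.mem_comap.1 hf))
  have h3 := hinv a⁻¹ f
  rw [inv_inv] at h3
  rwa [h3] at h2

/-- A vanishing ideal unchanged on subgroups of finite index is prime. -/
theorem isPrime_zeroIdeal {m : G →* Matrix d d K}
    (hdense : ∀ H : Subgroup G, H.FiniteIndex → zeroIdeal m H ≤ zeroIdeal m ⊤) :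
    (zeroIdeal m ⊤).IsPrime := by
  classical
  set I := zeroIdeal m ⊤
  have hfin := I.finite_minimalPrimes_of_isNoetherianRing (MvPolynomial (d × d) K)
  letI : MulAction G G := Monoid.toMulAction G
  set Z : Ideal (MvPolynomial (d × d) K) → Set G := fun P =>
    {x | ∀ f ∈ P, MvPolynomial.eval (fun p : d × d => m x p.1 p.2) f = 0}
  set smulSet : G → Set G → Set G := fun a s => {x | a⁻¹ * x ∈ s}
  have hmove : ∀ P ∈ I.minimalPrimes, ∀ a : G,
      smulSet a (Z P) = Z (P.comap (translate (m a))) := fun P _ a => by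
    ext x
    refine ⟨fun hx f hf => ?_, fun hx f hf => ?_⟩
    · have h := hx _ (Ideal.mem_comap.1 hf)
      rw [eval_translate, ← map_mul, mul_inv_cancel_left] at h
      exact h
    · have h := hx (translate (m a⁻¹) f) (by
        rw [Ideal.mem_comap]
        rwa [translate_translate, ← map_mul, inv_mul_cancel, map_one, translate_one])
      rwa [eval_translate, ← map_mul] at h
  -- the translations fixing every zero set
  set φ : G → (I.minimalPrimes → Set G) := fun a P => smulSet a (Z P.1)
  let H : Subgroup G :=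
    { carrier := {a | ∀ P ∈ I.minimalPrimes, smulSet a (Z P) = Z P}
      one_mem' := fun P _ => by simp [smulSet]
      mul_mem' := fun {a b} ha hb P hP => by
        ext x
        rw [← Set.ext_iff.1 (ha P hP) x]
        show (a * b)⁻¹ * x ∈ Z P ↔ a⁻¹ * x ∈ Z P
        rw [mul_inv_rev, mul_assoc]
        exact Set.ext_iff.1 (hb P hP) (a⁻¹ * x)
      inv_mem' := fun {a} ha P hP => by
        ext x
        show a⁻¹⁻¹ * x ∈ Z P ↔ x ∈ Z P
        conv_rhs => rw [← inv_mul_cancel_left a x]
        rw [inv_inv]
        exact (Set.ext_iff.1 (ha P hP) (a * x)).symm }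
  haveI : H.FiniteIndex := by
    haveI : Finite I.minimalPrimes := hfin.to_subtype
    have himg : (Set.range φ).Finite :=
      (Set.Finite.pi fun _ : I.minimalPrimes => hfin.image Z).subset (by
        rintro _ ⟨a, rfl⟩ P -
        exact ⟨_, comap_translate_mem P.2 a, (hmove P.1 P.2 a).symm⟩)
    haveI : Finite (Set.range φ) := himg.to_subtype
    let ψ : G ⧸ H → Set.range φ := fun q => ⟨φ q.out, q.out, rfl⟩
    haveI : Finite (G ⧸ H) := Finite.of_injective ψ fun q q' h => by
      rw [← QuotientGroup.out_eq' q, ← QuotientGroup.out_eq' q', QuotientGroup.eq]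
      intro P hP
      ext x
      have h1 := Set.ext_iff.1 (congrFun (congrArg Subtype.val h) ⟨P, hP⟩) (q.out * x)
      show (q.out⁻¹ * q'.out)⁻¹ * x ∈ Z P ↔ x ∈ Z P
      simp only [ψ, φ, smulSet, Set.mem_ofPred_eq, inv_mul_cancel_left] at h1
      rw [mul_inv_rev, inv_inv, mul_assoc]
      exact h1.symm
    exact Subgroup.finiteIndex_of_finite_quotient
  obtain ⟨P, hP, h1⟩ : ∃ P ∈ I.minimalPrimes, (1 : G) ∈ Z P := by
    by_contra! h
    simp only [Z, Set.mem_ofPred_eq, not_forall] at h
    choose f hfP hf using h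
    have hprod : ∏ P ∈ hfin.toFinset.attach, f P.1 (hfin.mem_toFinset.1 P.2) ∈ I.radical := by
      rw [← Ideal.sInf_minimalPrimes, Submodule.mem_sInf]
      intro P hP
      exact Ideal.mem_of_dvd _ (dvd_prod_of_mem
        (fun P : hfin.toFinset => f P.1 (hfin.mem_toFinset.1 P.2))
        (mem_attach _ ⟨P, hfin.mem_toFinset.2 hP⟩)) (hfP P hP)
    obtain ⟨k, hk⟩ := hprod
    have h0 := mem_zeroIdeal.1 hk 1 trivial
    rw [map_pow, map_prod] at h0
    exact prod_ne_zero_iff.2 (fun P _ => hf P.1 _) (pow_eq_zero_iff'.1 h0).1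
  have hle : P ≤ zeroIdeal m H := fun f hf => mem_zeroIdeal.2 fun x hx => by
    have h := (Set.ext_iff.1 (hx P hP) x).1 (show x⁻¹ * x ∈ Z P by rwa [inv_mul_cancel])
    exact h f hf
  have : I = P := le_antisymm hP.1.2 (hle.trans (hdense H inferInstance))
  exact this ▸ hP.1.1

/-- **A connected subgroup of finite index.** -/
theorem exists_connected [FiniteDimensional K V] (ρ : G →* Module.End K V) :
    ∃ H : Subgroup G, H.FiniteIndex ∧ IsConnectedRep (ρ.comp H.subtype) := by
  classical
  let b := Module.finBasis K V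
  let m : G →* Matrix (Fin (Module.finrank K V)) (Fin (Module.finrank K V)) K :=
    (LinearMap.toMatrixAlgEquiv b).toMonoidHom.comp ρ
  obtain ⟨I, ⟨H, hH, rfl⟩, hmax⟩ := set_has_maximal_iff_noetherian.2
    (inferInstance : IsNoetherian (MvPolynomial _ K) (MvPolynomial _ K))
    ((zeroIdeal m) '' {H | H.FiniteIndex}) ⟨_, ⊤, inferInstanceAs (Subgroup.FiniteIndex ⊤), rfl⟩
  haveI : H.FiniteIndex := hH
  set m' := m.comp H.subtype
  have htop : zeroIdeal m' ⊤ = zeroIdeal m H := by
    ext f
    simp [mem_zeroIdeal, m']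
  have hdense : ∀ H' : Subgroup H, H'.FiniteIndex → zeroIdeal m' H' ≤ zeroIdeal m' ⊤ := by
    intro H' hH'
    haveI : (H'.map H.subtype).FiniteIndex := ⟨by
      rw [Subgroup.index_map_subtype]
      exact mul_ne_zero hH'.index_ne_zero hH.index_ne_zero⟩
    have heq : zeroIdeal m' H' = zeroIdeal m (H'.map H.subtype) := by
      ext f
      simp [mem_zeroIdeal, m']
    rw [heq, htop]
    have hle : zeroIdeal m H ≤ zeroIdeal m (H'.map H.subtype) := fun f hf =>
      mem_zeroIdeal.2 fun x hx => mem_zeroIdeal.1 hf x (Subgroup.map_subtype_le H' hx)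
    exact (eq_of_le_of_not_lt hle (hmax _ ⟨_, ‹(H'.map H.subtype).FiniteIndex›, rfl⟩)).ge
  have hprime := isPrime_zeroIdeal hdense
  let ev : MvPolynomial (Fin (Module.finrank K V) × Fin (Module.finrank K V)) K →ₐ[K] (H → K) :=
    AlgHom.pi fun x : H => MvPolynomial.aeval fun p => m' x p.1 p.2
  have hev : ∀ f x, ev f x = MvPolynomial.eval (fun p => m' x p.1 p.2) f := fun f x => by
    induction f using MvPolynomial.induction_on with
    | C c => rw [MvPolynomial.eval_C]; exact MvPolynomial.aeval_C _ c
    | add p q hp hq => rw [map_add, map_add, Pi.add_apply, hp, hq]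
    | mul_X p i hp =>
      rw [map_mul, map_mul, Pi.mul_apply, hp, MvPolynomial.eval_X]
      congr 1
      exact MvPolynomial.aeval_X _ i
  refine ⟨H, hH, ev.range, ?_, ?_, fun φ v => ⟨∑ i, ∑ j,
    MvPolynomial.C (φ (b i) * b.repr v j) * MvPolynomial.X (i, j), funext fun x => ?_⟩⟩
  · rintro _ ⟨f, rfl⟩ _ ⟨g, rfl⟩ hfg
    have hmem : f * g ∈ zeroIdeal m' ⊤ := mem_zeroIdeal.2 fun x _ => by
      rw [← hev, map_mul]
      exact congrFun hfg x
    exact (hprime.mem_or_mem hmem).imp
      (fun h => funext fun x => (hev f x).trans (mem_zeroIdeal.1 h x (Subgroup.mem_top x)))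
      (fun h => funext fun x => (hev g x).trans (mem_zeroIdeal.1 h x (Subgroup.mem_top x)))
  · rintro _ ⟨f, rfl⟩ H' hH' h
    have hmem := hdense H' hH' (mem_zeroIdeal.2 fun x hx => (hev f x).symm.trans (h x hx))
    exact funext fun x => (hev f x).trans (mem_zeroIdeal.1 hmem x trivial)
  · show ev _ x = φ (ρ (x : G) v)
    rw [hev]
    conv_rhs => rw [← b.sum_repr v]
    simp only [map_sum, map_mul, MvPolynomial.eval_C, MvPolynomial.eval_X, map_smul, smul_eq_mul]
    rw [sum_comm]
    refine sum_congr rfl fun j _ => ?_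
    conv_rhs => rw [← b.sum_repr (ρ (x : G) (b j))]
    simp only [map_sum, map_smul, smul_eq_mul, Finset.mul_sum]
    refine sum_congr rfl fun i _ => ?_
    simp [m', m, LinearMap.toMatrixAlgEquiv_apply]
    ring

end FA.BoundedGeneration

end
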