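import Fermat.Agent.BoundedGeneration.ShortSums
import Mathlib.LinearAlgebra.Lagrange
import Mathlib.LinearAlgebra.Dual.Lemmas
import Mathlib.FieldTheory.IsAlgClosed.Basic

/-!
# Bounded generation by diagonalisable elements

An endomorphism is diagonalisable if a product of distinct linear factors kills it. If a group is
a product of the cyclic groups of finitely many diagonalisable elements, its matrix coefficients are
sums of boundedly many units; so each of its elements is diagonalisable.
-/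

set_option autoImplicit false

noncomputable section

open Finset Polynomial

namespace FA.BoundedGeneration

variable {K : Type*} [Field K] {V : Type*} [AddCommGroup V] [Module K V]

/-- Diagonalisable: killed by a product of distinct linear factors. -/
def IsDiag (f : Module.End K V) : Prop :=
  ∃ S : Finset K, aeval f (∏ μ ∈ S, (X - C μ)) = 0

/-- Spectral projections of a diagonalisable endomorphism. -/
theorem IsDiag.exists_projections {f : Module.End K V} (hf : IsDiag f) :
    ∃ (S : Finset K) (P : K → Module.End K V), (∀ μ ∈ S, f * P μ = μ • P μ) ∧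
      (∀ μ ∈ S, P μ ≠ 0) ∧ (∀ v, v = ∑ μ ∈ S, P μ v) := by
  classical
  obtain ⟨S, hS⟩ := hf
  rcases S.eq_empty_or_nonempty with rfl | hne
  · refine ⟨∅, fun _ => 0, by simp, by simp, fun v => ?_⟩
    rw [prod_empty, map_one] at hS
    rw [sum_empty, show v = (1 : Module.End K V) v from rfl, hS, LinearMap.zero_apply]
  set P : K → Module.End K V := fun μ => aeval f (Lagrange.basis S id μ)
  have hker : ∀ μ ∈ S, f * P μ = μ • P μ := fun μ hμ => by
    have h0 : aeval f ((X - C μ) * Lagrange.basis S id μ) = 0 := by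
      have : Lagrange.basis S id μ = C (∏ ν ∈ S.erase μ, (μ - ν)⁻¹) *
          ∏ ν ∈ S.erase μ, (X - C ν) := by
        rw [Lagrange.basis, map_prod, ← prod_mul_distrib]
        rfl
      rw [this, mul_left_comm, mul_prod_erase S (fun ν => X - C ν) hμ, map_mul, hS, mul_zero]
    rw [map_mul, map_sub, aeval_X, aeval_C, sub_mul, sub_eq_zero] at h0
    rw [h0, Algebra.algebraMap_eq_smul_one, smul_mul_assoc, one_mul]
  have hsum : ∀ v, v = ∑ μ ∈ S, P μ v := fun v => by
    rw [← LinearMap.sum_apply, ← map_sum, Lagrange.sum_basis Function.injective_id.injOn hne,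
      map_one, Module.End.one_apply]
  refine ⟨S.filter fun μ => P μ ≠ 0, P, fun μ hμ => hker μ (mem_filter.1 hμ).1,
    fun μ hμ => (mem_filter.1 hμ).2, fun v => ?_⟩
  conv_lhs => rw [hsum v]
  exact (sum_filter_of_ne (p := fun μ => P μ ≠ 0) fun μ _ h hP' => h (by
    rw [hP', LinearMap.zero_apply])).symm

/-- A diagonalisable endomorphism has no nilpotent polynomial. -/
theorem IsDiag.aeval_eq_zero_of_sq {f : Module.End K V} (hf : IsDiag f) {y : K[X]}
    (hy : aeval f (y ^ 2) = 0) : aeval f y = 0 := by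
  obtain ⟨S, P, hP, -, hsum⟩ := hf.exists_projections
  refine LinearMap.ext fun v => ?_
  have hev : ∀ μ ∈ S, ∀ q : K[X], aeval f q * P μ = q.eval μ • P μ := fun μ hμ q => by
    induction q using Polynomial.induction_on' with
    | add p q hp hq => rw [map_add, add_mul, hp, hq, eval_add, add_smul]
    | monomial k a =>
      rw [aeval_monomial, eval_monomial, mul_assoc]
      have hk : f ^ k * P μ = μ ^ k • P μ := by
        induction k with
        | zero => simp
        | succ k ih => rw [pow_succ, mul_assoc, hP μ hμ, mul_smul_comm, ih, smul_smul, pow_succ,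
            mul_comm μ]
      rw [hk, Algebra.algebraMap_eq_smul_one, smul_mul_assoc, one_mul, smul_smul]
  conv_lhs => rw [hsum v, map_sum]
  rw [LinearMap.zero_apply]
  refine sum_eq_zero fun μ hμ => ?_
  have h := hev μ hμ (y ^ 2)
  rw [hy, zero_mul, eval_pow] at h
  have h2 := LinearMap.congr_fun (hev μ hμ y) v
  rw [Module.End.mul_apply, LinearMap.smul_apply] at h2
  rw [h2]
  rcases smul_eq_zero.1 h.symm with h3 | h3
  · rw [pow_eq_zero_iff two_ne_zero] at h3
    rw [h3, zero_smul]
  · rw [h3, LinearMap.zero_apply, smul_zero]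

variable {G : Type*} [Group G] (ρ : G →* Module.End K V)

/-- The matrix coefficients are sums of boundedly many units. -/
def ShortCoeffs : Prop :=
  ∃ N : ℕ, ∀ (φ : V →ₗ[K] K) (v : V), ∃ M : Subgroup Kˣ, M.FG ∧ ∀ x, ShortSum M N (φ (ρ x v))

/-- An invertible diagonalisable element: its powers are exponential sums. -/
theorem exists_zpow_expansion {g : G} (hg : IsDiag (ρ g)) :
    ∃ (S : Finset Kˣ) (P : Kˣ → Module.End K V), (∀ μ ∈ S, P μ ≠ 0) ∧
      (∀ μ ∈ S, ρ g * P μ = (μ : K) • P μ) ∧
      ∀ (a : ℤ) (v : V), ρ (g ^ a) v = ∑ μ ∈ S, ((μ ^ a : Kˣ) : K) • P μ v := by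
  classical
  obtain ⟨S, P, hP, hP0, hsum⟩ := hg.exists_projections
  have hS : ∀ μ ∈ S, μ ≠ 0 := fun μ hμ h0 => hP0 μ hμ (by
    have h := hP μ hμ
    subst h0
    rw [zero_smul] at h
    rw [← one_mul (P 0), ← map_one ρ, ← inv_mul_cancel g, map_mul, mul_assoc, h, mul_zero])
  refine ⟨S.preimage Units.val Units.val_injective.injOn, fun μ => P μ,
    fun μ hμ => hP0 μ (mem_preimage.1 hμ), fun μ hμ => hP μ (mem_preimage.1 hμ), fun a v => ?_⟩
  have key : ∀ μ : Kˣ, (μ : K) ∈ S → ∀ w, ρ (g ^ a) (P μ w) = ((μ ^ a : Kˣ) : K) • P μ w :=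
    fun μ hμ w => by
    have h1 : ∀ x, ρ g (P μ x) = (μ : K) • P μ x := fun x => LinearMap.congr_fun (hP μ hμ) x
    have h2 : ρ g⁻¹ (P μ w) = ((μ⁻¹ : Kˣ) : K) • P μ w := by
      have h := congrArg (ρ g⁻¹) (h1 w)
      rw [← Module.End.mul_apply, ← map_mul, inv_mul_cancel, map_one, Module.End.one_apply,
        map_smul] at h
      conv_rhs => rw [h, smul_smul, Units.inv_mul, one_smul]
    induction a with
    | zero => simp
    | succ i ih =>
      rw [zpow_add_one, map_mul, Module.End.mul_apply, h1, map_smul, ih, smul_smul, zpow_add_one,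
        Units.val_mul, mul_comm]
    | pred i ih =>
      rw [zpow_sub_one, map_mul, Module.End.mul_apply, h2, map_smul, ih, smul_smul, zpow_sub_one,
        Units.val_mul, mul_comm]
  conv_lhs => rw [hsum v, map_sum]
  refine (sum_bij' (fun μ hμ => Units.mk0 μ (hS μ hμ)) (fun μ _ => (μ : K))
    (fun μ hμ => mem_preimage.2 hμ) (fun μ hμ => mem_preimage.1 hμ) (fun _ _ => rfl)
    (fun μ _ => Units.ext rfl) fun μ hμ => key (Units.mk0 μ (hS μ hμ)) hμ v)

/-- A product of cyclic groups of diagonalisable elements has short matrix coefficients. -/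
theorem shortCoeffs_of_products {k : ℕ} (g : Fin k → G) (hg : ∀ i, IsDiag (ρ (g i))) :
    ∃ N : ℕ, ∀ (φ : V →ₗ[K] K) (v : V), ∃ M : Subgroup Kˣ, M.FG ∧ ∀ a : Fin k → ℤ,
      ShortSum M N (φ (ρ (List.ofFn fun i => g i ^ a i).prod v)) := by
  classical
  induction k with
  | zero =>
    refine ⟨1, fun φ v => ?_⟩
    by_cases h : φ v = 0
    · exact ⟨⊥, ⟨∅, by simp⟩, fun a => by simpa [h] using ShortSum.zero ⊥ 1⟩
    · refine ⟨Subgroup.zpowers (Units.mk0 _ h),
        ⟨{Units.mk0 _ h}, by rw [coe_singleton, Subgroup.zpowers_eq_closure]⟩, fun a => ?_⟩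
      exact ⟨univ, fun _ => Units.mk0 _ h, fun _ => Subgroup.mem_zpowers _, by simp⟩
  | succ k ih =>
    obtain ⟨N, hN⟩ := ih (fun i => g i.succ) fun i => hg i.succ
    obtain ⟨S, P, -, -, hexp⟩ := exists_zpow_expansion ρ (hg 0)
    refine ⟨S.card * N, fun φ v => ?_⟩
    choose M hM hMs using fun μ : Kˣ => hN (φ.comp (P μ)) v
    refine ⟨Subgroup.closure (S : Set Kˣ) ⊔ S.sup M, Subgroup.FG.sup ⟨S, rfl⟩ ?_, fun a => ?_⟩
    · exact Finset.sup_induction (p := fun H : Subgroup Kˣ => H.FG) ⟨∅, by simp⟩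
        (fun _ h _ h' => h.sup h') fun μ _ => hM μ
    · rw [List.ofFn_succ, List.prod_cons, map_mul, Module.End.mul_apply, hexp, map_sum]
      refine ShortSum.sum S fun μ hμ => ?_
      rw [map_smul, smul_eq_mul]
      exact ((hMs μ fun i => a i.succ).mono
        ((le_sup (f := M) hμ).trans le_sup_right)).unit_mul
        (Subgroup.mem_sup_left (zpow_mem (Subgroup.subset_closure (mem_coe.2 hμ)) _))

variable [CharZero K] [IsAlgClosed K] [FiniteDimensional K V]

/-- **All elements are diagonalisable** when the matrix coefficients are short. -/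
theorem isDiag_of_shortCoeffs (h : ShortCoeffs ρ) (x : G) : IsDiag (ρ x) := by
  classical
  set f := ρ x
  have hint : IsIntegral K f := Algebra.IsIntegral.isIntegral f
  set m := minpoly K f
  by_cases hnd : m.roots.Nodup
  · refine ⟨m.roots.toFinset, ?_⟩
    rw [prod_eq_multiset_prod, Multiset.toFinset_val, Multiset.dedup_eq_self.2 hnd,
      ← (IsAlgClosed.splits m).eq_prod_roots_of_monic (minpoly.monic hint)]
    exact minpoly.aeval K f
  obtain ⟨μ, hμ⟩ : ∃ μ, 2 ≤ m.rootMultiplicity μ := by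
    rw [Multiset.nodup_iff_count_le_one] at hnd
    push Not at hnd
    obtain ⟨μ, hμ⟩ := hnd
    exact ⟨μ, by rw [← count_roots]; omega⟩
  obtain ⟨r, hr⟩ : (X - C μ) ^ 2 ∣ m := (le_rootMultiplicity_iff (minpoly.ne_zero hint)).1 hμ
  set e := f - algebraMap K (Module.End K V) μ
  have he : aeval f (X - C μ) = e := by rw [map_sub, aeval_X, aeval_C]
  have hne : aeval f ((X - C μ) * r) ≠ 0 := fun h0 => by
    have hd := minpoly.dvd K f h0
    rw [show minpoly K f = m from rfl, hr, pow_two, mul_assoc] at hd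
    have hm0 : (X - C μ) * r ≠ 0 := fun h => minpoly.ne_zero hint (by
      rw [show minpoly K f = m from rfl, hr, pow_two, mul_assoc, h, mul_zero])
    have := natDegree_le_of_dvd hd hm0
    rw [natDegree_mul (X_sub_C_ne_zero μ) hm0, natDegree_X_sub_C] at this
    omega
  obtain ⟨u, hu⟩ : ∃ u, aeval f ((X - C μ) * r) u ≠ 0 := by
    by_contra! h
    exact hne (LinearMap.ext h)
  set v₀ := aeval f r u
  have he1 : e v₀ ≠ 0 := by
    rw [map_mul, he, Module.End.mul_apply] at hu
    exact hu
  have he2 : e (e v₀) = 0 := by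
    have h0 : aeval f m = 0 := minpoly.aeval K f
    rw [hr, pow_two, mul_assoc, map_mul, map_mul, he] at h0
    simpa [v₀] using LinearMap.congr_fun h0 u
  have hfv : f v₀ = μ • v₀ + e v₀ := by simp [e]
  have hfe : f (e v₀) = μ • e v₀ := by
    have : f (e v₀) = e (e v₀) + μ • e v₀ := by simp [e]
    rw [this, he2, zero_add]
  have hμ0 : μ ≠ 0 := fun h0 => he1 (by
    rw [h0, zero_smul] at hfe
    have := congrArg (ρ x⁻¹) hfe
    rwa [← Module.End.mul_apply, ← map_mul, inv_mul_cancel, map_one, Module.End.one_apply,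
      map_zero] at this)
  have hind : v₀ ∉ K ∙ e v₀ := fun hm => by
    obtain ⟨c, hc⟩ := Submodule.mem_span_singleton.1 hm
    exact he1 (by rw [← hc, map_smul, he2, smul_zero])
  obtain ⟨φ₀, hφ₀, hφker⟩ := Submodule.exists_dual_map_eq_bot_of_notMem hind inferInstance
  obtain ⟨ψ, hψ⟩ := Module.Projective.exists_dual_ne_zero K he1
  set φ : V →ₗ[K] K := ψ - (ψ v₀ / φ₀ v₀) • φ₀
  have hker : φ₀ (e v₀) = 0 := by
    have h : φ₀ (e v₀) ∈ (K ∙ e v₀).map φ₀ :=
      Submodule.mem_map_of_mem (Submodule.mem_span_singleton_self _)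
    rwa [hφker, Submodule.mem_bot] at h
  have hφv : φ v₀ = 0 := by simp [φ, div_mul_cancel₀ _ hφ₀]
  have hφe : φ (e v₀) = ψ (e v₀) := by simp [φ, hker]
  have hpow : ∀ m : ℕ, φ (ρ (x ^ (m + 1)) v₀) = (m + 1) * μ ^ m * ψ (e v₀) := fun m => by
    have key : ∀ j : ℕ, (ρ (x ^ j)) v₀ = μ ^ j • v₀ + ((j : K) * μ ^ (j - 1)) • e v₀ := fun j => by
      induction j with
      | zero => simp
      | succ j ih =>
        rw [pow_succ', map_mul, Module.End.mul_apply, ih, map_add, map_smul, map_smul,
          show ρ x = f from rfl, hfv, hfe, smul_add, smul_smul, smul_smul, add_assoc, ← add_smul,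
          ← pow_succ]
        congr 2
        rcases j with _ | j
        · simp
        · simp only [Nat.succ_sub_one, pow_succ]; push_cast; ring
    rw [key, map_add, map_smul, map_smul, hφv, hφe]
    simp
  obtain ⟨N, hN⟩ := h
  obtain ⟨M, hM, hMs⟩ := hN φ v₀
  set π := Units.mk0 μ hμ0
  set b := Units.mk0 (ψ (e v₀)) hψ
  have hM' : (M ⊔ Subgroup.closure {π, b}).FG :=
    Subgroup.FG.sup hM ⟨{π, b}, by simp⟩
  obtain ⟨m, hm⟩ := exists_not_shortSum hM' N 1 one_ne_zero
  have hπ : π ∈ Subgroup.closure ({π, b} : Set Kˣ) := Subgroup.subset_closure (Set.mem_insert _ _)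
  have hb : b ∈ Subgroup.closure ({π, b} : Set Kˣ) :=
    Subgroup.subset_closure (Set.mem_insert_of_mem _ rfl)
  have hshort := ((hMs (x ^ (m + 1))).mono le_sup_left).unit_mul (c := (π ^ m * b)⁻¹)
    (Subgroup.mem_sup_right (inv_mem (mul_mem (pow_mem hπ m) hb)))
  refine absurd hshort ?_
  rw [hpow]
  convert hm using 2
  simp [π, b]
  field_simp
  ring

end FA.BoundedGeneration

end
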