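import Fermat.Agent.BoundedGeneration.Abelian
import Mathlib.LinearAlgebra.Semisimple
import Mathlib.FieldTheory.IsAlgClosed.AlgebraicClosure
import Mathlib.FieldTheory.Perfect

/-!
# Bounded generation by semisimple elements

Over the algebraic closure semisimple means diagonalisable; so a linear group in characteristic zero
boundedly generated by semisimple elements consists of semisimple elements and is virtually abelian.
-/

set_option autoImplicit false

noncomputable section

open Polynomial

namespace FA.BoundedGeneration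

variable {K : Type*} [Field K] {n : ℕ}

/-- Matrices over a field as endomorphisms over its algebraic closure. -/
def toClosure (K : Type*) [Field K] (n : ℕ) :
    Matrix (Fin n) (Fin n) K →+* Module.End (AlgebraicClosure K) (Fin n → AlgebraicClosure K) :=
  (Matrix.toLinAlgEquiv' : Matrix (Fin n) (Fin n) (AlgebraicClosure K) ≃ₐ[AlgebraicClosure K]
    Module.End (AlgebraicClosure K) (Fin n → AlgebraicClosure K)).toRingEquiv.toRingHom.comp
      (algebraMap K (AlgebraicClosure K)).mapMatrix

theorem toClosure_injective : Function.Injective (toClosure K n) :=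
  fun _ _ h => Matrix.map_injective (algebraMap K (AlgebraicClosure K)).injective
    (Matrix.toLinAlgEquiv'.injective h)

theorem toClosure_aeval (A : Matrix (Fin n) (Fin n) K) (p : K[X]) :
    toClosure K n (aeval A p) =
      aeval (toClosure K n A) (p.map (algebraMap K (AlgebraicClosure K))) := by
  induction p using Polynomial.induction_on' with
  | add p q hp hq => rw [map_add, map_add, hp, hq, Polynomial.map_add, map_add]
  | monomial k a =>
    rw [aeval_monomial, map_monomial, aeval_monomial, map_mul, map_pow]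
    congr 1
    simp [toClosure, Matrix.algebraMap_eq_diagonal, Matrix.diagonal_map]
    ext v i
    simp [Matrix.toLinAlgEquiv'_apply, Matrix.mulVec_diagonal]

theorem aeval_toLin' (A : Matrix (Fin n) (Fin n) K) (p : K[X]) :
    aeval (Matrix.toLin' A) p = Matrix.toLin' (aeval A p) :=
  aeval_algHom_apply Matrix.toLinAlgEquiv'.toAlgHom A p

variable [CharZero K]

theorem isDiag_toClosure {A : Matrix (Fin n) (Fin n) K}
    (hA : Module.End.IsSemisimple (Matrix.toLin' A)) :
    IsDiag (toClosure K n A) := by
  classical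
  set p := minpoly K (Matrix.toLin' A : Module.End K (Fin n → K))
  have hsep : (p.map (algebraMap K (AlgebraicClosure K))).Separable :=
    ((PerfectField.separable_iff_squarefree).2 hA.minpoly_squarefree).map
  have hmonic : (p.map (algebraMap K (AlgebraicClosure K))).Monic :=
    (minpoly.monic (Algebra.IsIntegral.isIntegral _)).map _
  have h0 : aeval A p = 0 :=
    Matrix.toLin'.injective (by rw [← aeval_toLin', minpoly.aeval, map_zero])
  refine ⟨(p.map (algebraMap K (AlgebraicClosure K))).roots.toFinset, ?_⟩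
  rw [Finset.prod_eq_multiset_prod, Multiset.toFinset_val,
    Multiset.dedup_eq_self.2 (nodup_roots hsep),
    ← (IsAlgClosed.splits _).eq_prod_roots_of_monic hmonic, ← toClosure_aeval, h0, map_zero]

theorem isSemisimple_of_isDiag {A : Matrix (Fin n) (Fin n) K} (hA : IsDiag (toClosure K n A)) :
    Module.End.IsSemisimple (Matrix.toLin' A) := by
  refine Module.End.isSemisimple_of_squarefree_aeval_eq_zero (p := minpoly K A) ?_
    (by rw [aeval_toLin', minpoly.aeval, map_zero])
  intro x ⟨h, hh⟩
  by_contra hx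
  have hint : IsIntegral K A := Algebra.IsIntegral.isIntegral A
  have hm0 := minpoly.ne_zero hint
  have hsq : aeval (toClosure K n A)
      ((x * h).map (algebraMap K (AlgebraicClosure K)) ^ 2) = 0 := by
    rw [← Polynomial.map_pow, ← toClosure_aeval,
      show (x * h) ^ 2 = x * x * h * h by ring, ← hh, map_mul, minpoly.aeval, zero_mul, map_zero]
  have h0 := hA.aeval_eq_zero_of_sq hsq
  rw [← toClosure_aeval, ← map_zero (toClosure K n)] at h0
  have hd := minpoly.dvd K A (toClosure_injective h0)
  have hxh : x * h ≠ 0 := fun e => hm0 (by rw [hh, mul_assoc, e, mul_zero])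
  have hle := natDegree_le_of_dvd hd hxh
  rw [hh, mul_assoc, natDegree_mul (left_ne_zero_of_mul hxh) hxh] at hle
  exact hx (isUnit_iff_degree_eq_zero.2 (by
    rw [degree_eq_natDegree (left_ne_zero_of_mul hxh)]
    exact_mod_cast (by omega : x.natDegree = 0)))

/-- **The theorem of Corvaja, Rapinchuk, Ren and Zannier.** -/
theorem bounded_generation (G : Subgroup (Matrix.GeneralLinearGroup (Fin n) K)) {k : ℕ}
    (g : Fin k → Matrix.GeneralLinearGroup (Fin n) K) (hg : ∀ i, g i ∈ G)
    (hss : ∀ i, Module.End.IsSemisimple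
      (Matrix.toLin' (g i : Matrix (Fin n) (Fin n) K)))
    (hgen : ∀ x ∈ G, ∃ a : Fin k → ℤ, x = (List.ofFn fun i => g i ^ a i).prod) :
    (∀ x ∈ G, Module.End.IsSemisimple
      (Matrix.toLin' (x : Matrix (Fin n) (Fin n) K))) ∧
      ∃ A : Subgroup G, A.FiniteIndex ∧ ∀ x ∈ A, ∀ y ∈ A, x * y = y * x := by
  classical
  set ρ : G →* Module.End (AlgebraicClosure K) (Fin n → AlgebraicClosure K) :=
    ((toClosure K n).toMonoidHom.comp (Units.coeHom _)).comp G.subtype
  set g' : Fin k → G := fun i => ⟨g i, hg i⟩
  have hprod : ∀ a : Fin k → ℤ, ((List.ofFn fun i => g' i ^ a i).prod : G).1 =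
      (List.ofFn fun i => g i ^ a i).prod := fun a => by
    rw [SubmonoidClass.coe_list_prod, List.map_ofFn]
    rfl
  have hgen' : ∀ x : G, ∃ a : Fin k → ℤ, x = (List.ofFn fun i => g' i ^ a i).prod := fun x => by
    obtain ⟨a, ha⟩ := hgen x x.2
    exact ⟨a, Subtype.ext (by rw [hprod, ← ha])⟩
  have hshort : ShortCoeffs ρ := by
    obtain ⟨N, hN⟩ := shortCoeffs_of_products ρ g' fun i => isDiag_toClosure (hss i)
    refine ⟨N, fun φ v => ?_⟩
    obtain ⟨M, hM, hs⟩ := hN φ v
    refine ⟨M, hM, fun x => ?_⟩
    obtain ⟨a, rfl⟩ := hgen' x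
    exact hs a
  have : Group.FG G := Group.fg_iff.2 ⟨Set.range g', eq_top_iff.2 fun x _ => by
    obtain ⟨a, rfl⟩ := hgen' x
    refine Subgroup.list_prod_mem _ fun y hy => ?_
    obtain ⟨i, rfl⟩ := List.mem_ofFn.1 hy
    have hi : g' i ∈ Subgroup.closure (Set.range g') :=
      Subgroup.subset_closure (Set.mem_range_self i)
    exact zpow_mem hi _, Set.finite_range g'⟩
  refine ⟨fun x hx => isSemisimple_of_isDiag (isDiag_of_shortCoeffs ρ hshort ⟨x, hx⟩), ?_⟩
  obtain ⟨H, hH, hconn⟩ := exists_connected ρ
  haveI := hH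
  refine ⟨H, hH, fun x hx y hy => ?_⟩
  have hshortH : ShortCoeffs (ρ.comp H.subtype) := by
    obtain ⟨N, hN⟩ := hshort
    exact ⟨N, fun φ v => let ⟨M, hM, hs⟩ := hN φ v; ⟨M, hM, fun z => hs z⟩⟩
  have h := commute_of_connected _ _ (ρ.comp H.subtype) rfl hshortH hconn ⟨x, hx⟩ ⟨y, hy⟩
  exact Subtype.ext (Units.ext (toClosure_injective h))

/-- A nontrivial unipotent element obstructs. -/
theorem not_bounded_generation (G : Subgroup (Matrix.GeneralLinearGroup (Fin n) K))
    {u : Matrix.GeneralLinearGroup (Fin n) K} (hu : u ∈ G) (hu1 : u ≠ 1)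
    (hnil : IsNilpotent ((u : Matrix (Fin n) (Fin n) K) - 1)) {k : ℕ}
    (g : Fin k → Matrix.GeneralLinearGroup (Fin n) K) (hg : ∀ i, g i ∈ G)
    (hss : ∀ i, Module.End.IsSemisimple
      (Matrix.toLin' (g i : Matrix (Fin n) (Fin n) K))) :
    ∃ x ∈ G, ∀ a : Fin k → ℤ, x ≠ (List.ofFn fun i => g i ^ a i).prod := by
  by_contra! h
  have hs := (bounded_generation G g hg hss h).1 u hu
  have hd := isDiag_toClosure hs
  have hA : IsDiag (toClosure K n ((u : Matrix (Fin n) (Fin n) K) - 1)) := by
    obtain ⟨S, hS⟩ := hd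
    refine ⟨S.map ⟨fun μ => μ - 1, sub_left_injective⟩, ?_⟩
    rw [Finset.prod_map, map_sub, map_one,
      show toClosure K n (u : Matrix (Fin n) (Fin n) K) - 1 =
        aeval (toClosure K n (u : Matrix (Fin n) (Fin n) K)) (X - 1 : (AlgebraicClosure K)[X]) by
          rw [map_sub, aeval_X, map_one],
      ← aeval_comp]
    refine Eq.trans ?_ hS
    congr 1
    rw [prod_comp]
    exact Finset.prod_congr rfl fun μ _ => by simp
  obtain ⟨j, hj⟩ := hnil
  have hzero : ∀ j : ℕ, aeval (toClosure K n ((u : Matrix (Fin n) (Fin n) K) - 1))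
      ((X : (AlgebraicClosure K)[X]) ^ j) = 0 → toClosure K n ((u : Matrix _ _ K) - 1) = 0 := by
    intro j
    induction j using Nat.strong_induction_on with
    | _ j ih =>
      intro hj
      match j with
      | 0 =>
        rw [pow_zero, map_one] at hj
        rw [← one_mul (toClosure K n _), hj, zero_mul]
      | 1 => rwa [pow_one, aeval_X] at hj
      | j + 2 =>
        refine ih (j + 1) (by omega) (hA.aeval_eq_zero_of_sq ?_)
        rw [← pow_mul, show (j + 1) * 2 = (j + 2) + j by ring, pow_add, map_mul, hj, zero_mul]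
  have h0 := hzero j (by rw [map_pow, aeval_X, ← map_pow, hj, map_zero])
  rw [← map_zero (toClosure K n)] at h0
  exact hu1 (Units.ext (sub_eq_zero.1 (toClosure_injective h0)))

end FA.BoundedGeneration

end
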