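import Fermat.Agent.UnitEquationFields.Tori
import Mathlib.NumberTheory.Padics.PadicVal.Basic

/-!
# Sums of boundedly many units

In a vanishing sum of terms from a finitely generated group each of two terms in a part without
vanishing part is the other times one of finitely many factors. So a bounded number of units cannot
give all the values of a nonconstant affine function (Jarden and Narkiewicz), nor those of an
exponential sum with more terms.
-/

set_option autoImplicit false

noncomputable section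

open Finset

namespace FA.BoundedGeneration

open FA.UnitEquationFields (IsMinVanishing exists_minVanishing unitEqFinite_of_fg)

variable {K : Type*} [Field K]

/-- A sum of at most `N` elements of `M`. -/
def ShortSum (M : Subgroup Kˣ) (N : ℕ) (x : K) : Prop :=
  ∃ (T : Finset (Fin N)) (u : Fin N → Kˣ), (∀ i, u i ∈ M) ∧ x = ∑ i ∈ T, (u i : K)

theorem ShortSum.zero (M : Subgroup Kˣ) (N : ℕ) : ShortSum M N 0 :=
  ⟨∅, fun _ => 1, fun _ => one_mem M, by simp⟩

theorem ShortSum.mono {M M' : Subgroup Kˣ} {N : ℕ} {x : K} (h : ShortSum M N x) (hM : M ≤ M') :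
    ShortSum M' N x :=
  let ⟨T, u, hu, hx⟩ := h
  ⟨T, u, fun i => hM (hu i), hx⟩

theorem ShortSum.unit_mul {M : Subgroup Kˣ} {N : ℕ} {x : K} (h : ShortSum M N x) {c : Kˣ}
    (hc : c ∈ M) : ShortSum M N (c * x) := by
  obtain ⟨T, u, hu, rfl⟩ := h
  exact ⟨T, fun i => c * u i, fun i => mul_mem hc (hu i), by simp [mul_sum]⟩

theorem ShortSum.add {M : Subgroup Kˣ} {N N' : ℕ} {x y : K} (hx : ShortSum M N x)
    (hy : ShortSum M N' y) : ShortSum M (N + N') (x + y) := by
  obtain ⟨T, u, hu, rfl⟩ := hx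
  obtain ⟨T', u', hu', rfl⟩ := hy
  refine ⟨(T.disjSum T').map finSumFinEquiv.toEmbedding,
    fun i => Sum.elim u u' (finSumFinEquiv.symm i), fun i => ?_, ?_⟩
  · show Sum.elim u u' (finSumFinEquiv.symm i) ∈ M
    rcases finSumFinEquiv.symm i with j | j
    exacts [hu j, hu' j]
  · rw [sum_map, sum_disjSum]
    simp

theorem ShortSum.sum {M : Subgroup Kˣ} {N : ℕ} {α : Type*} (s : Finset α) {f : α → K}
    (h : ∀ a ∈ s, ShortSum M N (f a)) : ShortSum M (s.card * N) (∑ a ∈ s, f a) := by
  classical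
  induction s using Finset.induction with
  | empty => simpa using ShortSum.zero M (0 * N)
  | insert a s ha ih =>
    rw [sum_insert ha, card_insert_of_notMem ha, add_mul, one_mul, add_comm (s.card * N)]
    exact (h a (mem_insert_self a s)).add (ih fun b hb => h b (mem_insert_of_mem hb))

variable [CharZero K]

/-- **Ratios in minimal vanishing sums**: finitely many. -/
theorem finite_ratios {M : Subgroup Kˣ} (hM : M.FG) {ι : Type*} [Fintype ι] (c : ι → K) :
    ∃ V : Set Kˣ, V.Finite ∧ ∀ (w : ι → Kˣ) (B : Finset ι), (∀ i, w i ∈ M) → (∀ i ∈ B, c i ≠ 0) →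
      IsMinVanishing (fun i => c i * w i) B → ∀ i ∈ B, ∀ j ∈ B, w i / w j ∈ V := by
  classical
  let coef : ∀ (B : Finset ι) (j : ι), ↥(B.erase j) → K := fun _ j i => -(c i.1 / c j)
  let P : Finset (Finset ι × ι) := univ.filter fun p => p.2 ∈ p.1 ∧ ∀ i ∈ p.1, c i ≠ 0
  refine ⟨insert 1 (⋃ p ∈ P, ⋃ i : ↥(p.1.erase p.2), (fun u : ↥(p.1.erase p.2) → Kˣ => u i) ''
    {u | (∀ a, u a ∈ M) ∧ ∑ a, coef p.1 p.2 a * (u a : K) = 1 ∧
      ∀ T : Finset ↥(p.1.erase p.2), T.Nonempty → ∑ a ∈ T, coef p.1 p.2 a * (u a : K) ≠ 0}),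
    (P.finite_toSet.biUnion fun p hp => Set.finite_iUnion fun i =>
      ((unitEqFinite_of_fg hM).fintype _ fun a => neg_ne_zero.2 (div_ne_zero
        ((mem_filter.1 hp).2.2 _ (mem_of_mem_erase a.2))
        ((mem_filter.1 hp).2.2 _ (mem_filter.1 hp).2.1))).image _).insert 1,
    fun w B hw hc hB i hi j hj => ?_⟩
  by_cases hij : i = j
  · left; rw [hij, div_self']
  right
  simp only [Set.mem_iUnion]
  refine ⟨(B, j), mem_filter.2 ⟨mem_univ _, hj, hc⟩, ⟨i, mem_erase.2 ⟨hij, hi⟩⟩,
    fun a => w a.1 / w j, ⟨fun a => div_mem (hw _) (hw j), ?_, fun T hT h0 => ?_⟩, rfl⟩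
  all_goals
    have hterm : ∀ a : ↥(B.erase j), coef B j a * ((w a.1 / w j : Kˣ) : K) =
        -(c a.1 * w a.1 / (c j * w j)) := fun a => by
      simp only [coef]
      rw [Units.val_div_eq_div_val, neg_mul, div_mul_div_comm]
  · rw [sum_congr rfl fun a _ => hterm a, sum_neg_distrib, ← sum_div,
      sum_coe_sort (B.erase j) fun a => c a * (w a : K), sum_erase_eq_sub hj, hB.2.1, zero_sub,
      neg_div, neg_neg, div_self (mul_ne_zero (hc j hj) (w j).ne_zero)]
  · rw [sum_congr rfl fun a _ => hterm a, sum_neg_distrib, ← sum_div, neg_eq_zero, div_eq_zero_iff,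
      or_iff_left (mul_ne_zero (hc j hj) (w j).ne_zero)] at h0
    have h := hB.2.2 (T.map (Function.Embedding.subtype _)) (fun a ha => by
      obtain ⟨b, -, rfl⟩ := mem_map.1 ha
      exact mem_of_mem_erase b.2) hT.map (by rw [sum_map]; exact h0)
    obtain ⟨b, -, hb⟩ := mem_map.1 (h.ge hj)
    exact (ne_of_mem_erase b.2) hb

omit [CharZero K] in
/-- Without two marked terms in one part, the marked terms are outnumbered. -/
theorem two_marked_or_card_le {ι : Type*} [DecidableEq ι] (t : ι → K) (p : ι → Prop)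
    [DecidablePred p] (A : Finset ι) : (∀ i ∈ A, t i ≠ 0) → ∑ i ∈ A, t i = 0 →
      (∃ B ⊆ A, IsMinVanishing t B ∧ ∃ i ∈ B, ∃ j ∈ B, i ≠ j ∧ p i ∧ p j) ∨
        #{i ∈ A | p i} ≤ #{i ∈ A | ¬p i} := by
  induction A using Finset.strongInduction with
  | _ A ih =>
    intro hne hsum
    rcases A.eq_empty_or_nonempty with rfl | hA
    · exact Or.inr le_rfl
    obtain ⟨B, hB, hBm⟩ := exists_minVanishing t A hA hsum
    by_cases htwo : ∃ i ∈ B, ∃ j ∈ B, i ≠ j ∧ p i ∧ p j
    · exact Or.inl ⟨B, hB, hBm, htwo⟩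
    push Not at htwo
    have h1 : #{i ∈ B | p i} ≤ #{i ∈ B | ¬p i} := by
      have hle : #{i ∈ B | p i} ≤ 1 := card_le_one.2 fun i hi j hj => by
        by_contra hij
        exact htwo i (mem_filter.1 hi).1 j (mem_filter.1 hj).1 hij (mem_filter.1 hi).2
          (mem_filter.1 hj).2
      have hcard : 2 ≤ #B := by
        by_contra! hlt
        obtain ⟨b, rfl⟩ := card_eq_one.1 (show #B = 1 by have := hBm.1.card_pos; omega)
        exact hne b (hB (mem_singleton_self b)) (by simpa using hBm.2.1)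
      have := card_filter_add_card_filter_not (s := B) fun i => p i
      omega
    rcases ih (A \ B) (sdiff_ssubset hB hBm.1) (fun i hi => hne i (mem_sdiff.1 hi).1)
        (by rw [sum_sdiff_eq_sub hB, hsum, hBm.2.1, sub_zero]) with ⟨C, hC, hh⟩ | h2
    · exact Or.inl ⟨C, hC.trans sdiff_subset, hh⟩
    right
    have hsplit : ∀ q : ι → Prop, [DecidablePred q] →
        #{i ∈ A | q i} = #{i ∈ A \ B | q i} + #{i ∈ B | q i} := fun q _ => by
      rw [← card_union_of_disjoint (disjoint_filter_filter sdiff_disjoint), ← filter_union,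
        sdiff_union_of_subset hB]
    rw [hsplit p, hsplit fun i => ¬p i]
    omega

/-- **Exponential sums with more than `N` terms**: two terms stay close. -/
theorem exists_close_terms {M : Subgroup Kˣ} (hM : M.FG) {τ : Type*} [Fintype τ] (F : τ → K)
    (hF : ∀ t, F t ≠ 0) {N : ℕ} (hN : N < Fintype.card τ) :
    ∃ V : Set Kˣ, V.Finite ∧ ∀ X : τ → Kˣ, (∀ t, X t ∈ M) → ShortSum M N (∑ t, F t * X t) →
      ∃ t t' : τ, t ≠ t' ∧ X t / X t' ∈ V := by
  classical
  obtain ⟨V, hV, hVr⟩ := finite_ratios hM (Sum.elim F fun _ : Fin N => (-1 : K))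
  refine ⟨V, hV, fun X hX ⟨T, u, hu, hsum⟩ => ?_⟩
  set A : Finset (τ ⊕ Fin N) := (univ : Finset τ).disjSum T
  set w : τ ⊕ Fin N → Kˣ := Sum.elim X u
  set c : τ ⊕ Fin N → K := Sum.elim F fun _ => -1
  have hne : ∀ i, c i ≠ 0 := by rintro (t | i) <;> simp [c, hF]
  have h0 : ∑ i ∈ A, c i * (w i : K) = 0 := by
    rw [sum_disjSum]
    simp [c, w, hsum]
  rcases two_marked_or_card_le (fun i => c i * (w i : K)) (fun i => i.isLeft = true) A
      (fun i _ => mul_ne_zero (hne i) (w i).ne_zero) h0 with ⟨B, -, hBm, i, hi, j, hj, hij, hp⟩ | h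
  · have h := hVr w B (by rintro (t | i); exacts [hX t, hu i]) (fun i _ => hne i) hBm i hi j hj
    rcases i with t | i
    · rcases j with t' | j
      · exact ⟨t, t', fun e => hij (congrArg Sum.inl e), h⟩
      · simp at hp
    · simp at hp
  · exfalso
    have h1 : Fintype.card τ ≤ #{i ∈ A | i.isLeft = true} := by
      rw [← card_univ, ← card_map (Function.Embedding.inl : τ ↪ τ ⊕ Fin N)]
      refine card_le_card fun i hi => ?_
      obtain ⟨t, -, rfl⟩ := mem_map.1 hi
      simp [A]
    have h2 : #{i ∈ A | ¬i.isLeft = true} ≤ N := by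
      refine (card_le_card (t := (univ : Finset (Fin N)).map Function.Embedding.inr) ?_).trans
        (by rw [card_map, card_univ, Fintype.card_fin])
      rintro (t | i) hi
      · simp at hi
      · simp
    omega

/-- Only finitely many primes have powers in a finitely generated group. -/
theorem finite_primes_pow_mem {M : Subgroup Kˣ} (hM : M.FG) :
    {p : ℕ | p.Prime ∧ ∃ (x : Kˣ) (m : ℕ), m ≠ 0 ∧ (x : K) = (p : K) ^ m ∧ x ∈ M}.Finite := by
  classical
  set f : ℚˣ →* Kˣ := Units.map (Rat.castHom K : ℚ →* K)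
  have hf : Function.Injective f := Units.map_injective (Rat.castHom K).injective
  obtain ⟨G, hG⟩ := FA.UnitEquationFields.fg_comap hf hM
  refine (G.biUnion fun q : ℚˣ =>
    (q : ℚ).num.natAbs.primeFactors ∪ (q : ℚ).den.primeFactors).finite_toSet.subset ?_
  rintro p ⟨hp, x, m, hm, hxp, hxM⟩
  by_contra hS
  haveI : Fact p.Prime := ⟨hp⟩
  have key : ∀ q ∈ M.comap f, padicValRat p (q : ℚ) = 0 := fun q hq => by
    rw [← hG] at hq
    induction hq using Subgroup.closure_induction with
    | mem q hq =>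
      simp only [coe_biUnion, Set.mem_iUnion, not_exists, mem_coe, mem_union, not_or] at hS
      obtain ⟨h1, h2⟩ := hS q hq
      rw [Nat.mem_primeFactors_of_ne_zero (Int.natAbs_ne_zero.2 (Rat.num_ne_zero.2 q.ne_zero))]
        at h1
      rw [Nat.mem_primeFactors_of_ne_zero (q : ℚ).den_nz] at h2
      rw [padicValRat_def, padicValInt,
        padicValNat.eq_zero_of_not_dvd fun h => h1 ⟨hp, h⟩,
        padicValNat.eq_zero_of_not_dvd fun h => h2 ⟨hp, h⟩]
      simp
    | one => simp
    | mul a b _ _ ha hb => rw [Units.val_mul, padicValRat.mul a.ne_zero b.ne_zero, ha, hb, add_zero]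
    | inv a _ ha => rw [Units.val_inv_eq_inv_val, padicValRat.inv, ha, neg_zero]
  have hp0 : (p : ℚ) ≠ 0 := Nat.cast_ne_zero.2 hp.ne_zero
  have := key ((Units.mk0 (p : ℚ) hp0) ^ m) (by
    rw [Subgroup.mem_comap]
    convert hxM using 1
    exact Units.ext (by simp [f, hxp]))
  rw [Units.val_pow_eq_pow_val, Units.val_mk0, padicValRat.pow, padicValRat.self hp.one_lt]
    at this
  simp [hm] at this

/-- **Jarden–Narkiewicz**: a nonconstant affine function is no bounded sum of units. -/
theorem exists_not_shortSum {M : Subgroup Kˣ} (hM : M.FG) (N : ℕ) (c₀ : K) {c₁ : K}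
    (hc₁ : c₁ ≠ 0) : ∃ m : ℕ, ¬ShortSum M N (c₀ + c₁ * m) := by
  classical
  by_contra! hall
  obtain ⟨p, hp, hpM⟩ : ∃ p : ℕ, p.Prime ∧
      ¬∃ (x : Kˣ) (m : ℕ), m ≠ 0 ∧ (x : K) = (p : K) ^ m ∧ x ∈ M := by
    obtain ⟨p, hp⟩ :=
      (Nat.infinite_setOfPred_prime.diff (finite_primes_pow_mem hM)).nonempty
    exact ⟨p, hp.1, fun h => hp.2 ⟨hp.1, h⟩⟩
  have hp0 : (p : K) ≠ 0 := Nat.cast_ne_zero.2 hp.ne_zero
  set π := Units.mk0 (p : K) hp0
  set M' := M ⊔ Subgroup.zpowers π
  have hM' : M'.FG := Subgroup.FG.sup hM ⟨{π}, by rw [coe_singleton, Subgroup.zpowers_eq_closure]⟩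
  set c : Option (Option (Fin N)) → K := fun o => o.elim c₁ fun o' => o'.elim c₀ fun _ => -1
  obtain ⟨V, hV, hVr⟩ := finite_ratios hM' c
  have hj : ∀ j : ℕ, ∃ v ∈ V, π ^ j / v ∈ M := fun j => by
    obtain ⟨T, u, hu, hsum⟩ := hall (p ^ j)
    set w : Option (Option (Fin N)) → Kˣ := fun o =>
      o.elim (π ^ j) fun o' => o'.elim 1 u
    set A : Finset (Option (Option (Fin N))) := (insertNone (insertNone T)).filter fun o => c o ≠ 0
    have h0 : ∑ o ∈ A, c o * (w o : K) = 0 := by
      have h1 : ∀ o ∈ insertNone (insertNone T), o ∉ A → c o * (w o : K) = 0 := fun o ho hA => by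
        have : c o = 0 := by simpa [A, ho] using hA
        rw [this, zero_mul]
      rw [sum_subset (filter_subset _ _) h1, sum_insertNone, sum_insertNone]
      push_cast at hsum
      simp [c, w, π, ← hsum]
    have hmark : none ∈ A := by simp [A, c, hc₁]
    have hex : ∀ (A : Finset (Option (Option (Fin N)))), none ∈ A →
        ∑ o ∈ A, c o * (w o : K) = 0 →
        ∃ B ⊆ A, IsMinVanishing (fun o => c o * (w o : K)) B ∧ none ∈ B := fun A => by
      induction A using Finset.strongInduction with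
      | _ A ih =>
        intro hA hs
        obtain ⟨B, hB, hBm⟩ := exists_minVanishing (fun o => c o * (w o : K)) A ⟨_, hA⟩ hs
        by_cases hn : none ∈ B
        · exact ⟨B, hB, hBm, hn⟩
        obtain ⟨B', hB', h'⟩ := ih (A \ B) (sdiff_ssubset hB hBm.1) (mem_sdiff.2 ⟨hA, hn⟩)
          (by rw [sum_sdiff_eq_sub hB, hs, hBm.2.1, sub_zero])
        exact ⟨B', hB'.trans sdiff_subset, h'⟩
    obtain ⟨B, hB, hBm, hn⟩ := hex A hmark h0
    obtain ⟨o, ho, hone⟩ : ∃ o ∈ B, o ≠ none := by
      by_contra! h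
      have : B = {none} := eq_singleton_iff_unique_mem.2 ⟨hn, h⟩
      have h2 := hBm.2.1
      rw [this, sum_singleton] at h2
      exact mul_ne_zero hc₁ (w none).ne_zero h2
    have hwM : ∀ o, w o ∈ M'
      | none => pow_mem (Subgroup.mem_sup_right (Subgroup.mem_zpowers π)) j
      | some none => one_mem _
      | some (some i) => Subgroup.mem_sup_left (hu i)
    refine ⟨_, hVr w B hwM (fun i hi => (mem_filter.1 (hB hi)).2) hBm none hn o ho, ?_⟩
    rw [show w none = π ^ j from rfl, div_div_cancel]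
    match o, hone with
    | some none, _ => exact one_mem M
    | some (some i), _ => exact hu i
  choose v hvV hv using hj
  obtain ⟨i, -, j, -, hlt, he⟩ := Set.infinite_univ.exists_lt_map_eq_of_mapsTo
    (f := v) (fun j _ => hvV j) hV
  refine hpM ⟨π ^ (j - i), j - i, by omega, by simp [π], ?_⟩
  have h := div_mem (hv j) (hv i)
  rwa [he, div_div_div_cancel_right, div_eq_mul_inv, ← zpow_natCast, ← zpow_natCast, ← zpow_sub,
    ← Nat.cast_sub hlt.le, zpow_natCast] at h

end FA.BoundedGeneration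

end
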